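import Mathlib.NumberTheory.Padics.PadicVal.Basic
import Mathlib.Algebra.Order.BigOperators.Ring.Finset
import Mathlib.Data.Real.Basic
import Mathlib.Data.Int.ModEq
import Mathlib.Data.Nat.GCD.BigOperators
import Mathlib.Data.Nat.Cast.Field
import Mathlib.Algebra.BigOperators.Field
import Mathlib.Analysis.SpecialFunctions.Log.Basic

/-!
# The distortion method

Balister, Bollobás, Morris, Sahasrabudhe and Tiba: reveal the residues prime by prime and push the
weight of each fibre away from the congruences of that prime, never by a factor above `1 / (1 - δ)`.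
A congruence to the modulus `d` keeps weight at most `1 / d` times the product of these factors.
-/

set_option autoImplicit false

noncomputable section

namespace FA.CoveringSystems

open Finset

/-- Congruences `x ≡ res i (mod modulus i)` with a bound for the exponents and the parameters. -/
structure Congruences (ι : Type) where
  /-- The indices. -/
  index : Finset ι
  /-- The moduli. -/
  modulus : ι → ℕ
  /-- The residues. -/
  res : ι → ℕ
  /-- A bound for the exponents. -/
  height : ℕ
  /-- The parameters of the distortion. -/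
  δ : ℕ → ℝ
  δ_nonneg : ∀ k, 0 ≤ δ k
  δ_lt_one : ∀ k, δ k < 1

namespace Congruences

variable {ι : Type} (C : Congruences ι)

/-- The prime power revealed at the step `k`. -/
def stepQ (k : ℕ) : ℕ := if k.Prime then k ^ C.height else 1

/-- The modulus after the primes below `k`. -/
def bigQ (k : ℕ) : ℕ := ∏ j ∈ range k, C.stepQ j

theorem stepQ_pos (k : ℕ) : 0 < C.stepQ k := by
  unfold stepQ
  split_ifs with h
  · exact pow_pos h.pos _
  · exact one_pos

theorem bigQ_pos (k : ℕ) : 0 < C.bigQ k := prod_pos fun j _ => C.stepQ_pos j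

theorem bigQ_succ (k : ℕ) : C.bigQ (k + 1) = C.bigQ k * C.stepQ k := prod_range_succ _ k

theorem bigQ_zero : C.bigQ 0 = 1 := prod_range_zero _

theorem coprime_bigQ_stepQ (k : ℕ) : (C.bigQ k).Coprime (C.stepQ k) := by
  refine Nat.Coprime.prod_left fun j hj => ?_
  unfold stepQ
  split_ifs with h1 h2
  · exact ((Nat.coprime_primes h1 h2).2 (mem_range.1 hj).ne).pow _ _
  · exact Nat.coprime_one_right _
  · exact Nat.coprime_one_left _
  · exact Nat.coprime_one_left _

/-- The congruences of the step `k`. -/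
def stage (k : ℕ) : Finset ι :=
  C.index.filter fun i => C.modulus i ∣ C.bigQ (k + 1) ∧ ¬C.modulus i ∣ C.bigQ k

open scoped Classical in
/-- Whether `z` satisfies a congruence of the step `k`. -/
def hit (k z : ℕ) : ℝ := if ∃ i ∈ C.stage k, z ≡ C.res i [MOD C.modulus i] then 1 else 0

theorem hit_eq (k z : ℕ) : C.hit k z = 0 ∨ C.hit k z = 1 := by
  unfold hit
  split_ifs <;> simp

theorem hit_nonneg (k z : ℕ) : 0 ≤ C.hit k z := by
  rcases C.hit_eq k z with h | h <;> simp [h]

theorem hit_le_one (k z : ℕ) : C.hit k z ≤ 1 := by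
  rcases C.hit_eq k z with h | h <;> simp [h]

theorem hit_periodic (k x y : ℕ) : C.hit k (x + C.bigQ (k + 1) * y) = C.hit k x := by
  classical
  unfold hit
  refine if_congr (exists_congr fun i => and_congr_right fun hi => ?_) rfl rfl
  obtain ⟨c, hc⟩ := (mem_filter.1 hi).2.1
  rw [hc, mul_assoc, Nat.ModEq, Nat.add_mul_mod_self_left, ← Nat.ModEq]

/-- The part of the fibre over `x` hit at the step `k`. -/
def frac (k x : ℕ) : ℝ := (∑ y ∈ range (C.stepQ k), C.hit k (x + C.bigQ k * y)) / C.stepQ k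

theorem frac_nonneg (k x : ℕ) : 0 ≤ C.frac k x :=
  div_nonneg (sum_nonneg fun _ _ => C.hit_nonneg _ _) (Nat.cast_nonneg _)

theorem frac_le_one (k x : ℕ) : C.frac k x ≤ 1 := by
  rw [frac, div_le_one (Nat.cast_pos.2 (C.stepQ_pos k))]
  refine (sum_le_card_nsmul _ _ 1 fun y _ => C.hit_le_one _ _).trans ?_
  simp

/-- The factor on the residues hit at the step `k`. -/
def hitFactor (k x : ℕ) : ℝ :=
  if C.frac k x ≤ C.δ k then 0 else (C.frac k x - C.δ k) / (C.frac k x * (1 - C.δ k))

/-- The factor on the others. -/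
def missFactor (k x : ℕ) : ℝ :=
  if C.frac k x ≤ C.δ k then 1 / (1 - C.frac k x) else 1 / (1 - C.δ k)

/-- The distorted weight of a residue to the modulus `bigQ k`. -/
def weight : ℕ → ℕ → ℝ
  | 0, _ => 1
  | k + 1, z => weight k (z % C.bigQ k) *
      (C.hit k z * C.hitFactor k (z % C.bigQ k) + (1 - C.hit k z) * C.missFactor k (z % C.bigQ k)) /
      C.stepQ k

theorem factor_bounds (k x : ℕ) : (0 ≤ C.hitFactor k x ∧ C.hitFactor k x ≤ 1 / (1 - C.δ k)) ∧
    0 ≤ C.missFactor k x ∧ C.missFactor k x ≤ 1 / (1 - C.δ k) := by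
  have hd := C.δ_nonneg k
  have hd1 : 0 < 1 - C.δ k := sub_pos.2 (C.δ_lt_one k)
  have ha := C.frac_nonneg k x
  unfold hitFactor missFactor
  split_ifs with h
  · exact ⟨⟨le_rfl, one_div_nonneg.2 hd1.le⟩, one_div_nonneg.2 (by linarith),
      one_div_le_one_div_of_le hd1 (by linarith)⟩
  · refine ⟨⟨div_nonneg (by linarith) (mul_nonneg ha hd1.le), ?_⟩, one_div_nonneg.2 hd1.le, le_rfl⟩
    rw [div_le_div_iff₀ (mul_pos (by linarith) hd1) hd1]
    have := mul_nonneg hd hd1.le
    linarith

theorem weight_nonneg : ∀ k z, 0 ≤ C.weight k z := by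
  intro k
  induction k with
  | zero => exact fun z => zero_le_one
  | succ k ih =>
    intro z
    refine div_nonneg (mul_nonneg (ih _) ?_) (Nat.cast_nonneg _)
    exact add_nonneg (mul_nonneg (C.hit_nonneg _ _) (C.factor_bounds _ _).1.1)
      (mul_nonneg (sub_nonneg.2 (C.hit_le_one _ _)) (C.factor_bounds _ _).2.1)

/-- The weight of a set. -/
def mass (k : ℕ) (G : ℕ → ℝ) : ℝ := ∑ z ∈ range (C.bigQ k), C.weight k z * G z

theorem mass_mono (k : ℕ) {F G : ℕ → ℝ} (h : ∀ z, F z ≤ G z) : C.mass k F ≤ C.mass k G :=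
  sum_le_sum fun z _ => mul_le_mul_of_nonneg_left (h z) (C.weight_nonneg k z)

theorem sum_range_mul_eq (Q q : ℕ) (F : ℕ → ℝ) :
    ∑ z ∈ range (Q * q), F z = ∑ y ∈ range q, ∑ x ∈ range Q, F (x + Q * y) := by
  induction q with
  | zero => simp
  | succ q ih =>
    rw [Nat.mul_succ, sum_range_add, ih, sum_range_succ]
    simp only [add_comm]

/-- A step, fibre by fibre. -/
theorem mass_succ (k : ℕ) (G : ℕ → ℝ) : C.mass (k + 1) G =
    ∑ x ∈ range (C.bigQ k), C.weight k x * ((∑ y ∈ range (C.stepQ k),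
      (C.hit k (x + C.bigQ k * y) * C.hitFactor k x +
        (1 - C.hit k (x + C.bigQ k * y)) * C.missFactor k x) * G (x + C.bigQ k * y)) /
      C.stepQ k) := by
  rw [mass, bigQ_succ, sum_range_mul_eq, sum_comm]
  refine sum_congr rfl fun x hx => ?_
  rw [sum_div, mul_sum]
  refine sum_congr rfl fun y _ => ?_
  rw [weight, Nat.add_mul_mod_self_left, Nat.mod_eq_of_lt (mem_range.1 hx)]
  ring

theorem fibre_total (k x : ℕ) :
    (∑ y ∈ range (C.stepQ k), (C.hit k (x + C.bigQ k * y) * C.hitFactor k x +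
      (1 - C.hit k (x + C.bigQ k * y)) * C.missFactor k x)) / C.stepQ k = 1 := by
  have hq : (0 : ℝ) < C.stepQ k := Nat.cast_pos.2 (C.stepQ_pos k)
  have hd1 : 0 < 1 - C.δ k := sub_pos.2 (C.δ_lt_one k)
  have ha := C.frac_nonneg k x
  rw [sum_add_distrib, ← sum_mul, ← sum_mul, sum_sub_distrib, add_div, mul_div_right_comm,
    mul_div_right_comm, sub_div, sum_const, card_range, nsmul_one, div_self hq.ne', ← frac,
    hitFactor, missFactor]
  have hd := C.δ_nonneg k
  split_ifs with h
  · rw [mul_zero, zero_add, mul_one_div, div_self]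
    linarith
  · have : 0 < C.frac k x := by linarith
    field_simp
    ring

/-- Later steps do not change the weight of a periodic set. -/
theorem mass_succ_periodic (k : ℕ) {G : ℕ → ℝ} (hG : ∀ x y, G (x + C.bigQ k * y) = G x) :
    C.mass (k + 1) G = C.mass k G := by
  rw [mass_succ, mass]
  refine sum_congr rfl fun x _ => ?_
  simp only [hG]
  rw [← sum_mul, mul_div_right_comm, C.fibre_total, one_mul]

theorem mass_one : ∀ k, C.mass k (fun _ => 1) = 1 := by
  intro k
  induction k with
  | zero => simp [mass, bigQ_zero, weight]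
  | succ k ih => rw [C.mass_succ_periodic k fun _ _ => rfl, ih]

/-- The weight hit at the step `k`. -/
theorem mass_hit (k : ℕ) : C.mass (k + 1) (C.hit k) =
    C.mass k fun x => if C.frac k x ≤ C.δ k then 0 else (C.frac k x - C.δ k) / (1 - C.δ k) := by
  rw [mass_succ, mass]
  refine sum_congr rfl fun x _ => congrArg (C.weight k x * ·) ?_
  have e : ∀ y, (C.hit k (x + C.bigQ k * y) * C.hitFactor k x +
      (1 - C.hit k (x + C.bigQ k * y)) * C.missFactor k x) * C.hit k (x + C.bigQ k * y) =
      C.hit k (x + C.bigQ k * y) * C.hitFactor k x := fun y => by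
    rcases C.hit_eq k (x + C.bigQ k * y) with h | h <;> simp [h]
  simp only [e]
  rw [← sum_mul, mul_div_right_comm, ← frac, hitFactor]
  have hd1 : 0 < 1 - C.δ k := sub_pos.2 (C.δ_lt_one k)
  have hd := C.δ_nonneg k
  split_ifs with h
  · rw [mul_zero]
  · have : 0 < C.frac k x := by linarith
    field_simp

theorem mass_hit_le_frac (k : ℕ) : C.mass (k + 1) (C.hit k) ≤ C.mass k (C.frac k) := by
  rw [mass_hit]
  refine C.mass_mono k fun x => ?_
  have hd1 : 0 < 1 - C.δ k := sub_pos.2 (C.δ_lt_one k)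
  split_ifs with h
  · exact C.frac_nonneg k x
  · rw [div_le_iff₀ hd1]
    have := mul_le_mul_of_nonneg_right (C.frac_le_one k x) (C.δ_nonneg k)
    linarith

theorem mass_hit_le_sq (k : ℕ) (hδ : 0 < C.δ k) : C.mass (k + 1) (C.hit k) ≤
    1 / (4 * C.δ k * (1 - C.δ k)) * C.mass k (fun x => C.frac k x ^ 2) := by
  rw [mass_hit, mass, mass, mul_sum]
  refine sum_le_sum fun x _ => ?_
  have hd1 : 0 < 1 - C.δ k := sub_pos.2 (C.δ_lt_one k)
  rw [mul_left_comm]
  refine mul_le_mul_of_nonneg_left ?_ (C.weight_nonneg k x)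
  rw [one_div, inv_mul_eq_div]
  split_ifs with h
  · positivity
  · rw [div_le_div_iff₀ hd1 (by positivity)]
    have := mul_le_mul_of_nonneg_right
      (show 4 * C.δ k * (C.frac k x - C.δ k) ≤ C.frac k x ^ 2 by
        nlinarith [sq_nonneg (C.frac k x - 2 * C.δ k)]) hd1.le
    linarith

/-- The product of the distortions. -/
def distort (d : ℕ) : ℝ := ∏ p ∈ d.primeFactors, 1 / (1 - C.δ p)

theorem distort_nonneg (d : ℕ) : 0 ≤ C.distort d :=
  prod_nonneg fun p _ => one_div_nonneg.2 (sub_nonneg.2 (C.δ_lt_one p).le)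

theorem card_fibre_class_le {Q q d : ℕ} (hQd : Q.Coprime d) (hd : d ∣ q) (hd0 : 0 < d) (x a : ℕ) :
    (((range q).filter fun y => x + Q * y ≡ a [MOD d]).card : ℝ) ≤ (q : ℝ) / d := by
  rw [← Nat.cast_div hd (Nat.cast_ne_zero.2 hd0.ne'), Nat.cast_le]
  refine (card_le_card_of_injOn (· / d) (t := range (q / d)) (fun y hy => ?_)
    (fun y hy z hz hyz => ?_)).trans (le_of_eq (card_range _))
  · simp only [coe_filter, mem_range, Set.mem_ofPred_eq] at hy
    exact mem_range.2 (Nat.div_lt_div_of_lt_of_dvd hd hy.1)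
  · simp only [coe_filter, mem_range, Set.mem_ofPred_eq] at hy hz
    have h1 : Q * y ≡ Q * z [MOD d] := Nat.ModEq.add_left_cancel' x (hy.2.trans hz.2.symm)
    have h2 : y % d = z % d := Nat.ModEq.cancel_left_of_coprime hQd.symm h1
    simp only at hyz
    rw [← Nat.div_add_mod y d, ← Nat.div_add_mod z d, hyz, h2]

theorem split_modulus (k : ℕ) {d : ℕ} (hd : d ∣ C.bigQ (k + 1)) :
    d = d.gcd (C.bigQ k) * d.gcd (C.stepQ k) := by
  rw [← Nat.Coprime.gcd_mul d (C.coprime_bigQ_stepQ k), ← C.bigQ_succ, Nat.gcd_eq_left hd]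

open scoped Classical in
/-- **A class keeps little weight.** -/
theorem mass_class_le : ∀ k d a, d ∣ C.bigQ k →
    C.mass k (fun z => if z ≡ a [MOD d] then 1 else 0) ≤ C.distort d / d := by
  intro k
  induction k with
  | zero =>
    intro d a hd
    rw [C.bigQ_zero, Nat.dvd_one] at hd
    subst hd
    simp [mass, bigQ_zero, weight, Nat.modEq_one, distort]
  | succ k ih =>
    intro d a hd
    obtain ⟨d₁, hd₁⟩ : ∃ d₁, d₁ = d.gcd (C.bigQ k) := ⟨_, rfl⟩
    obtain ⟨d₂, hd₂⟩ : ∃ d₂, d₂ = d.gcd (C.stepQ k) := ⟨_, rfl⟩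
    have hdd : d = d₁ * d₂ := hd₁ ▸ hd₂ ▸ C.split_modulus k hd
    have h1 : d₁ ∣ C.bigQ k := hd₁ ▸ Nat.gcd_dvd_right _ _
    have h2 : d₂ ∣ C.stepQ k := hd₂ ▸ Nat.gcd_dvd_right _ _
    have hd0 : 0 < d := Nat.pos_of_dvd_of_pos hd (C.bigQ_pos _)
    have hd20 : 0 < d₂ := Nat.pos_of_dvd_of_pos h2 (C.stepQ_pos k)
    have hcop : (C.bigQ k).Coprime d₂ := (C.coprime_bigQ_stepQ k).coprime_dvd_right h2
    have hind : ∀ x y : ℕ, x + C.bigQ k * y ≡ a [MOD d] →
        x ≡ a [MOD d₁] ∧ x + C.bigQ k * y ≡ a [MOD d₂] := fun x y h => by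
      rw [hdd] at h
      refine ⟨?_, h.of_mul_left _⟩
      have h3 := h.of_mul_right d₂
      obtain ⟨c, hc⟩ := h1
      rwa [hc, mul_assoc, Nat.ModEq, Nat.add_mul_mod_self_left] at h3
    have hq : (0 : ℝ) < C.stepQ k := Nat.cast_pos.2 (C.stepQ_pos k)
    have hD : C.distort d / d = C.distort d₁ / d₁ * (C.distort d₂ / d₂) := by
      have hc12 : d₁.Coprime d₂ := hcop.coprime_dvd_left h1
      rw [hdd, distort, distort, distort, hc12.primeFactors_mul,
        prod_union hc12.disjoint_primeFactors]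
      push_cast
      ring
    rw [hD, mass_succ]
    refine le_trans ?_ (mul_le_mul_of_nonneg_right (ih d₁ a h1)
      (div_nonneg (C.distort_nonneg _) (Nat.cast_nonneg _)))
    rw [mass, sum_mul]
    refine sum_le_sum fun x _ => ?_
    rw [mul_assoc]
    refine mul_le_mul_of_nonneg_left ?_ (C.weight_nonneg k x)
    by_cases hxa : x ≡ a [MOD d₁]
    · rw [if_pos hxa, one_mul]
      obtain ⟨⟨hf, hf'⟩, hm, hm'⟩ := C.factor_bounds k x
      have hw0 : ∀ y, 0 ≤ C.hit k (x + C.bigQ k * y) * C.hitFactor k x +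
          (1 - C.hit k (x + C.bigQ k * y)) * C.missFactor k x := fun y => by
        rcases C.hit_eq k (x + C.bigQ k * y) with h | h <;> simp [h, hf, hm]
      rcases Nat.eq_or_lt_of_le hd20 with h21 | h21
      · have e : C.distort d₂ / (d₂ : ℝ) = 1 := by rw [← h21]; simp [distort]
        rw [e]
        refine le_of_le_of_eq (div_le_div_of_nonneg_right (sum_le_sum fun y _ => ?_) hq.le)
          (C.fibre_total k x)
        refine mul_le_of_le_one_right (hw0 y) ?_
        split_ifs <;> norm_num
      · have hkp : k.Prime := by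
          by_contra hk
          rw [stepQ, if_neg hk, Nat.dvd_one] at h2
          omega
        have e : C.distort d₂ = 1 / (1 - C.δ k) := by
          rw [stepQ, if_pos hkp] at h2
          obtain ⟨j, -, hj⟩ := (Nat.dvd_prime_pow hkp).1 h2
          have hj0 : j ≠ 0 := fun h => by rw [h, pow_zero] at hj; omega
          rw [distort, hj, Nat.primeFactors_prime_pow hj0 hkp, prod_singleton]
        rw [e, div_le_iff₀ hq]
        calc ∑ y ∈ range (C.stepQ k), (C.hit k (x + C.bigQ k * y) * C.hitFactor k x +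
              (1 - C.hit k (x + C.bigQ k * y)) * C.missFactor k x) *
              (if x + C.bigQ k * y ≡ a [MOD d] then (1 : ℝ) else 0)
            ≤ ∑ y ∈ range (C.stepQ k), 1 / (1 - C.δ k) *
              (if x + C.bigQ k * y ≡ a [MOD d₂] then (1 : ℝ) else 0) := by
              refine sum_le_sum fun y _ => mul_le_mul ?_ ?_ (by split_ifs <;> norm_num)
                (one_div_nonneg.2 (sub_nonneg.2 (C.δ_lt_one k).le))
              · rcases C.hit_eq k (x + C.bigQ k * y) with h | h <;>
                  simp only [h, one_mul, zero_mul, sub_self, sub_zero, add_zero, zero_add, hm', hf']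
              · by_cases h : x + C.bigQ k * y ≡ a [MOD d]
                · rw [if_pos h, if_pos (hind x y h).2]
                · rw [if_neg h]
                  split_ifs <;> norm_num
          _ ≤ 1 / (1 - C.δ k) * ((C.stepQ k : ℝ) / d₂) := by
              rw [← mul_sum, sum_boole]
              exact mul_le_mul_of_nonneg_left (card_fibre_class_le hcop h2 hd20 x a)
                (one_div_nonneg.2 (sub_nonneg.2 (C.δ_lt_one k).le))
          _ = _ := by ring
    · rw [if_neg hxa, zero_mul]
      refine le_of_eq ?_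
      rw [sum_eq_zero fun y _ => by rw [if_neg fun h => hxa (hind x y h).1, mul_zero], zero_div]

/-- **If the weights hit sum to less than `1`, some residue is missed.** -/
theorem exists_missed (K : ℕ) (h : ∑ k ∈ range K, C.mass (k + 1) (C.hit k) < 1) :
    ∃ z, ∀ k < K, C.hit k z = 0 := by
  by_contra hcon
  push Not at hcon
  have hstable : ∀ k m, k + 1 ≤ m → C.mass m (C.hit k) = C.mass (k + 1) (C.hit k) := by
    intro k m hm
    induction m, hm using Nat.le_induction with
    | base => rfl
    | succ m hm ih =>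
      rw [C.mass_succ_periodic m fun x y => ?_, ih]
      have hdvd : C.bigQ (k + 1) ∣ C.bigQ m :=
        prod_dvd_prod_of_subset _ _ _ (range_subset_range.2 hm)
      obtain ⟨c, hc⟩ := hdvd
      rw [hc, mul_assoc, C.hit_periodic]
  have h1 : (1 : ℝ) ≤ C.mass K fun z => ∑ k ∈ range K, C.hit k z := by
    rw [← C.mass_one K]
    refine C.mass_mono K fun z => ?_
    obtain ⟨k, hk, hne⟩ := hcon z
    refine le_trans (le_of_eq ?_) (single_le_sum (fun i _ => C.hit_nonneg i z) (mem_range.2 hk))
    rcases C.hit_eq k z with h | h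
    · exact absurd h hne
    · exact h.symm
  refine absurd (h1.trans (le_of_eq ?_)) (not_le.2 h)
  simp only [mass, mul_sum]
  rw [sum_comm]
  exact sum_congr rfl fun k hk => hstable k K (mem_range.1 hk)

end Congruences

end FA.CoveringSystems

end
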