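import Fermat.Agent.CoveringSystems.Moments
import Fermat.Agent.ErdosKac.Mertens
import Mathlib.NumberTheory.EulerProduct.Basic
import Mathlib.Analysis.PSeries

/-!
# Hough's theorem

The steps of the large primes weigh little by the second moment, those of the small primes by the
first: the sum of `1 / n` over the moduli without a large prime is small once they are all large.
-/

set_option autoImplicit false

noncomputable section

namespace FA.CoveringSystems

open Finset Filter
open scoped Topology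

theorem summable_stage_bound (c : ℝ) :
    ∃ g : ℕ → ℝ, (∀ k, 0 ≤ g k) ∧ Summable g ∧ ∀ k, 3 ≤ k →
      c * Real.exp (14 * ∑ p ∈ (range k).filter Nat.Prime, 1 / (p : ℝ)) / ((k : ℝ) - 1) ^ 2 ≤
        g k := by
  obtain ⟨B, hB⟩ := ErdosKac.exists_abs_recipSum_sub_le
  obtain ⟨A, hA⟩ : ∃ A, A = |c| * Real.exp (14 * B) * 28 ^ 14 * 4 := ⟨_, rfl⟩
  have hA0 : 0 ≤ A := hA ▸ by positivity
  refine ⟨fun k => A * (k : ℝ) ^ (-(3 / 2) : ℝ), fun k => mul_nonneg hA0 (by positivity),
    (Real.summable_nat_rpow.2 (by norm_num)).mul_left A, fun k hk => ?_⟩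
  obtain ⟨S, hS⟩ : ∃ S, S = ∑ p ∈ (range k).filter Nat.Prime, 1 / (p : ℝ) := ⟨_, rfl⟩
  rw [← hS]
  have hk3 : (3 : ℝ) ≤ k := Nat.ofNat_le_cast.2 hk
  have hlk : 0 < Real.log k := Real.log_pos (by linarith)
  have hS1 : S ≤ Real.log (Real.log k) + B := by
    have h1 := (abs_le.1 (hB k (by omega))).2
    have h2 : S ≤ ErdosKac.recipSum k := by
      rw [hS, ErdosKac.recipSum, ErdosKac.primesUpTo]
      refine le_of_eq_of_le (sum_congr rfl fun p _ => one_div _) ?_
      refine sum_le_sum_of_subset_of_nonneg (fun p hp => ?_) fun p _ _ => by positivity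
      obtain ⟨hp, hpp⟩ := mem_filter.1 hp
      exact mem_filter.2 ⟨mem_Icc.2 ⟨hpp.pos, (mem_range.1 hp).le⟩, hpp⟩
    linarith
  have hlog : Real.log k ^ 14 ≤ 28 ^ 14 * (k : ℝ) ^ (1 / 2 : ℝ) := by
    have h1 := Real.log_le_rpow_div (show (0 : ℝ) ≤ k by linarith)
      (show (0 : ℝ) < 1 / 28 by norm_num)
    rw [div_div_eq_mul_div, div_one] at h1
    refine (pow_le_pow_left₀ hlk.le h1 14).trans (le_of_eq ?_)
    rw [mul_pow, ← Real.rpow_natCast _ 14, ← Real.rpow_mul (by linarith), mul_comm]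
    norm_num
  have hexp : Real.exp (14 * S) ≤ Real.exp (14 * B) * (28 ^ 14 * (k : ℝ) ^ (1 / 2 : ℝ)) := by
    refine (Real.exp_le_exp.2 (mul_le_mul_of_nonneg_left hS1 (by norm_num))).trans ?_
    rw [mul_add, Real.exp_add, mul_comm]
    refine mul_le_mul_of_nonneg_left (le_of_eq_of_le ?_ hlog) (Real.exp_pos _).le
    rw [← Real.exp_log hlk, ← Real.exp_nat_mul, Real.log_exp]
    norm_num
  have hsq : (k : ℝ) ^ 2 / 4 ≤ ((k : ℝ) - 1) ^ 2 := by nlinarith
  calc c * Real.exp (14 * S) / ((k : ℝ) - 1) ^ 2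
      ≤ |c| * (Real.exp (14 * B) * (28 ^ 14 * (k : ℝ) ^ (1 / 2 : ℝ))) / ((k : ℝ) ^ 2 / 4) :=
        div_le_div₀ (by positivity)
          (mul_le_mul (le_abs_self c) hexp (Real.exp_pos _).le (abs_nonneg c)) (by positivity) hsq
    _ = A * ((k : ℝ) ^ (1 / 2 : ℝ) / (k : ℝ) ^ (2 : ℕ)) := by rw [hA]; field_simp
    _ = _ := by
        rw [← Real.rpow_natCast _ 2, ← Real.rpow_sub (by linarith)]
        norm_num

/-- `n ↦ 1 / n`. -/
def invHom : ℕ →* ℝ where
  toFun n := ((n : ℝ))⁻¹
  map_one' := by simp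
  map_mul' a b := by push_cast; rw [mul_inv]

theorem exists_smooth_tail (P : Finset ℕ) {η : ℝ} (hη : 0 < η) : ∃ M : ℕ, ∀ T : Finset ℕ,
    (∀ n ∈ T, M ≤ n ∧ n ∈ Nat.factoredNumbers P) → ∑ n ∈ T, ((n : ℝ))⁻¹ < η := by
  have hsum : Summable fun m : Nat.factoredNumbers P => invHom m := by
    refine (EulerProduct.summable_and_hasSum_factoredNumbers_prod_filter_prime_geometric
      (f := invHom) (fun {p} hp => ?_) P).2.summable
    rw [show invHom p = ((p : ℝ))⁻¹ from rfl, Real.norm_of_nonneg (by positivity)]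
    exact inv_lt_one_of_one_lt₀ (Nat.one_lt_cast.2 hp.one_lt)
  obtain ⟨F, hF⟩ := summable_iff_vanishing_norm.1 hsum η hη
  classical
  refine ⟨F.sup (fun m => (m : ℕ)) + 1, fun T hT => ?_⟩
  have hdisj : Disjoint (T.subtype fun n => n ∈ Nat.factoredNumbers P) F := by
    refine Finset.disjoint_left.2 fun m hm hmF => ?_
    have h1 := (hT m (mem_subtype.1 hm)).1
    have h2 : (m : ℕ) ≤ F.sup (fun m => (m : ℕ)) :=
      le_sup (f := fun m : Nat.factoredNumbers P => (m : ℕ)) hmF
    omega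
  have h := hF _ hdisj
  rw [Real.norm_of_nonneg (sum_nonneg fun (m : Nat.factoredNumbers P) _ =>
    show 0 ≤ invHom (m : ℕ) from inv_nonneg.2 (Nat.cast_nonneg (m : ℕ)))] at h
  refine lt_of_eq_of_lt ?_ h
  exact (sum_subtype_of_mem (fun n : ℕ => ((n : ℝ))⁻¹) fun n hn => (hT n hn).2).symm

/-- **Hough's theorem**, natural residues. -/
theorem exists_min_modulus_nat (s : ℕ) : ∃ M : ℕ, ∀ (ι : Type) (S : Finset ι) (n a : ι → ℕ),
    (∀ i ∈ S, M ≤ n i) → (∀ m, (S.filter fun i => n i = m).card ≤ s) →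
      ∃ z, ∀ i ∈ S, ¬z ≡ a i [MOD n i] := by
  obtain ⟨g, hg0, hg, hgk⟩ := summable_stage_bound (4 / 3 * (s : ℝ) ^ 2)
  obtain ⟨F, hF⟩ := summable_iff_vanishing_norm.1 hg (1 / 2) (by norm_num)
  obtain ⟨p₀, hp₀⟩ : ∃ p₀, p₀ = max 3 (F.sup id + 1) := ⟨_, rfl⟩
  obtain ⟨M, hM⟩ := exists_smooth_tail (range p₀) (show (0 : ℝ) < 1 / (2 * (s + 1)) by positivity)
  refine ⟨max M 2, fun ι S n a hn hs => ?_⟩
  classical
  obtain ⟨N, hN⟩ : ∃ N, N = S.sup n := ⟨_, rfl⟩
  obtain ⟨δ, hδdef⟩ : ∃ δ : ℕ → ℝ, δ = fun k => if k < p₀ then 0 else 1 / 4 := ⟨_, rfl⟩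
  obtain ⟨C, hC⟩ : ∃ C : Congruences ι, C = ⟨S, n, a, N, δ,
      fun k => by rw [hδdef]; simp only; split_ifs <;> norm_num,
      fun k => by rw [hδdef]; simp only; split_ifs <;> norm_num⟩ := ⟨_, rfl⟩
  have hCS : C.index = S := by rw [hC]
  have hCn : C.modulus = n := by rw [hC]
  have hCδ : C.δ = δ := by rw [hC]
  have hδ4 : ∀ p, C.δ p ≤ 1 / 4 := fun p => by
    rw [hCδ, hδdef]; simp only; split_ifs <;> norm_num
  have hmult : ∀ m, (C.index.filter fun i => C.modulus i = m).card ≤ s := by rw [hCS, hCn]; exact hs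
  obtain ⟨K, hK⟩ : ∃ K, K = max (N + 1) p₀ := ⟨_, rfl⟩
  have hmono : ∀ {j k : ℕ}, j ≤ k → C.bigQ j ∣ C.bigQ k := fun h =>
    prod_dvd_prod_of_subset _ _ _ (range_subset_range.2 h)
  have hfull : ∀ i ∈ S, n i ∣ C.bigQ K := fun i hi => by
    have hi2 : 2 ≤ n i := le_of_max_le_right (hn i hi)
    have hiN : n i ≤ N := hN ▸ le_sup hi
    rw [Nat.prod_primeFactors_pow_factorization (show n i ≠ 0 by omega)]
    refine (prod_dvd_prod_of_dvd _ (fun p => C.stepQ p) fun p hp => ?_).trans
      (prod_dvd_prod_of_subset _ _ _ fun p hp => ?_)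
    · have hpp := Nat.prime_of_mem_primeFactors hp
      rw [Congruences.stepQ, if_pos hpp, show C.height = N by rw [hC]]
      refine pow_dvd_pow p ((Nat.le_of_lt ?_).trans hiN)
      exact lt_of_lt_of_le (Nat.lt_pow_self hpp.one_lt)
        (Nat.le_of_dvd (by omega) (Nat.ordProj_dvd (n i) p))
    · have := Nat.le_of_dvd (by omega) (Nat.dvd_of_mem_primeFactors hp)
      exact mem_range.2 (by omega)
  obtain ⟨z, hz⟩ : ∃ z, ∀ k < K, C.hit k z = 0 := by
    refine C.exists_missed K ?_
    rw [← sum_filter_add_sum_filter_not (range K) (fun k => k < p₀)]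
    have hsmall : ∑ k ∈ (range K).filter (fun k => k < p₀), C.mass (k + 1) (C.hit k) ≤
        ∑ k ∈ (range K).filter (fun k => k < p₀), ∑ i ∈ C.stage k, 1 / (C.modulus i : ℝ) := by
      refine sum_le_sum fun k hk => (C.mass_hit_le_frac k).trans (C.mass_frac_le k fun p hp => ?_)
      rw [hCδ, hδdef]
      exact if_pos (hp.trans (mem_filter.1 hk).2)
    have hsmall2 : ∑ k ∈ (range K).filter (fun k => k < p₀),
        ∑ i ∈ C.stage k, 1 / (C.modulus i : ℝ) < 1 / 2 := by
      obtain ⟨T, hT⟩ : ∃ T, T = ((range K).filter fun k => k < p₀).biUnion C.stage := ⟨_, rfl⟩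
      have hdisj : (↑((range K).filter fun k => k < p₀) : Set ℕ).PairwiseDisjoint C.stage := by
        have key : ∀ j k, j < k → Disjoint (C.stage j) (C.stage k) := fun j k hjk =>
          Finset.disjoint_left.2 fun i hi hi' =>
            (mem_filter.1 hi').2.2 ((mem_filter.1 hi).2.1.trans (hmono hjk))
        intro j _ k _ hjk
        rcases hjk.lt_or_gt with h | h
        · exact key j k h
        · exact (key k j h).symm
      rw [← sum_biUnion hdisj, ← hT]
      have hTn : ∀ m ∈ T.image C.modulus, M ≤ m ∧ m ∈ Nat.factoredNumbers (range p₀) := by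
        intro m hm
        obtain ⟨i, hi, rfl⟩ := mem_image.1 hm
        rw [hT, mem_biUnion] at hi
        obtain ⟨k, hk, hi⟩ := hi
        have hk' := (mem_filter.1 hk).2
        obtain ⟨hiS, hdvd, -⟩ := mem_filter.1 hi
        rw [hCS] at hiS
        have hne : C.modulus i ≠ 0 := by
          rw [hCn]; have := le_of_max_le_right (hn i hiS); omega
        refine ⟨hCn ▸ le_of_max_le_left (hn i hiS), ?_⟩
        rw [Nat.mem_factoredNumbers]
        refine ⟨hne, fun p hp => ?_⟩
        obtain ⟨hpp, hpd⟩ := (Nat.mem_primeFactorsList hne).1 hp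
        obtain ⟨j, hj, hpj⟩ := (Prime.dvd_finsetProd_iff hpp.prime _).1 (hpd.trans hdvd)
        unfold Congruences.stepQ at hpj
        have hjk := mem_range.1 hj
        split_ifs at hpj with h
        · rw [(Nat.prime_dvd_prime_iff_eq hpp h).1 (hpp.dvd_of_dvd_pow hpj)]
          exact mem_range.2 (by omega)
        · exact absurd (Nat.dvd_one.1 hpj) hpp.ne_one
      have h2 := hM _ hTn
      calc ∑ i ∈ T, 1 / (C.modulus i : ℝ)
          = ∑ m ∈ T.image C.modulus, ∑ i ∈ T.filter (fun i => C.modulus i = m),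
              1 / (C.modulus i : ℝ) :=
            (sum_fiberwise_of_maps_to (fun i hi => mem_image_of_mem _ hi) _).symm
        _ ≤ ∑ m ∈ T.image C.modulus, (s : ℝ) * ((m : ℝ))⁻¹ := by
            refine sum_le_sum fun m _ => ?_
            rw [sum_congr rfl fun i hi => by rw [(mem_filter.1 hi).2], sum_const, nsmul_eq_mul,
              one_div]
            refine mul_le_mul_of_nonneg_right (Nat.cast_le.2 ((card_le_card fun i hi => ?_).trans
              (hmult m))) (by positivity)
            obtain ⟨hi, hm⟩ := mem_filter.1 hi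
            rw [hT, mem_biUnion] at hi
            obtain ⟨k, -, hi⟩ := hi
            exact mem_filter.2 ⟨(mem_filter.1 hi).1, hm⟩
        _ < 1 / 2 := by
            rw [← mul_sum]
            have := mul_le_mul_of_nonneg_left h2.le (Nat.cast_nonneg (α := ℝ) s)
            have : (s : ℝ) * (1 / (2 * (s + 1))) < 1 / 2 := by
              rw [mul_one_div, div_lt_div_iff₀ (by positivity) two_pos]
              linarith
            linarith
    have hlarge : ∑ k ∈ (range K).filter (fun k => ¬k < p₀), C.mass (k + 1) (C.hit k) ≤ 1 / 2 := by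
      have h1 : ∀ k ∈ (range K).filter (fun k => ¬k < p₀), C.mass (k + 1) (C.hit k) ≤ g k := by
        intro k hk
        have hk' := not_lt.1 (mem_filter.1 hk).2
        have hδk : C.δ k = 1 / 4 := by rw [hCδ, hδdef]; exact if_neg (not_lt.2 hk')
        by_cases hp : k.Prime
        · refine (C.mass_hit_le_sq k (by rw [hδk]; norm_num)).trans ?_
          rw [hδk]
          refine (mul_le_mul_of_nonneg_left (C.mass_frac_sq_le hp hmult hδ4) (by norm_num)).trans
            (le_of_eq_of_le ?_ (hgk k (by omega)))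
          ring
        · have hempty : ∀ x, C.hit k x = 0 := fun x => by
            rw [Congruences.hit, if_neg]
            rintro ⟨i, hi, -⟩
            obtain ⟨-, h1, h2⟩ := mem_filter.1 hi
            rw [C.bigQ_succ, Congruences.stepQ, if_neg hp, mul_one] at h1
            exact h2 h1
          refine le_of_eq_of_le ?_ (hg0 k)
          rw [Congruences.mass]
          exact sum_eq_zero fun x _ => by rw [hempty, mul_zero]
      refine (sum_le_sum h1).trans ?_
      have hdisj : Disjoint ((range K).filter fun k => ¬k < p₀) F :=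
        Finset.disjoint_left.2 fun k hk hkF => by
          have : k ≤ F.sup id := le_sup (f := id) hkF
          have := not_lt.1 (mem_filter.1 hk).2
          omega
      have h := hF _ hdisj
      rw [Real.norm_of_nonneg (sum_nonneg fun k _ => hg0 k)] at h
      exact h.le
    linarith
  refine ⟨z, fun i hi hzi => ?_⟩
  have hex : ∃ k, n i ∣ C.bigQ (k + 1) := ⟨K, (hfull i hi).trans (hmono (by omega))⟩
  have hk : Nat.find hex < K := by
    refine lt_of_le_of_lt (Nat.find_min' hex (m := K - 1) ?_) (by omega)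
    rw [Nat.sub_add_cancel (by omega)]
    exact hfull i hi
  have hmin : ¬n i ∣ C.bigQ (Nat.find hex) := by
    rcases Nat.eq_zero_or_pos (Nat.find hex) with h | h
    · rw [h, C.bigQ_zero, Nat.dvd_one]
      have := le_of_max_le_right (hn i hi)
      omega
    · have := Nat.find_min hex (show Nat.find hex - 1 < Nat.find hex by omega)
      rwa [Nat.sub_add_cancel h] at this
  have h1 := hz _ hk
  rw [Congruences.hit, if_pos ⟨i, mem_filter.2 ⟨hCS ▸ hi, by rw [hCn]; exact Nat.find_spec hex,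
    by rw [hCn]; exact hmin⟩, by rw [hC]; exact hzi⟩] at h1
  exact one_ne_zero h1

/-- **Hough's theorem**: congruences to moduli that are large and seldom repeated miss an
integer. -/
theorem exists_min_modulus (s : ℕ) : ∃ M : ℕ, ∀ (ι : Type) (S : Finset ι) (n : ι → ℕ) (r : ι → ℤ),
    (∀ i ∈ S, M ≤ n i) → (∀ m, (S.filter fun i => n i = m).card ≤ s) →
      ∃ x : ℤ, ∀ i ∈ S, ¬(n i : ℤ) ∣ x - r i := by
  obtain ⟨M, hM⟩ := exists_min_modulus_nat s
  refine ⟨max M 1, fun ι S n r hn hs => ?_⟩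
  obtain ⟨z, hz⟩ := hM ι S n (fun i => (r i % n i).toNat)
    (fun i hi => le_of_max_le_left (hn i hi)) hs
  refine ⟨z, fun i hi h => hz i hi ?_⟩
  have hne : (n i : ℤ) ≠ 0 := Nat.cast_ne_zero.2 (by have := le_of_max_le_right (hn i hi); omega)
  refine Int.natCast_modEq_iff.1 ?_
  rw [Int.toNat_of_nonneg (Int.emod_nonneg _ hne)]
  refine Int.ModEq.trans ?_ (Int.emod_emod (r i) (n i)).symm
  exact (Int.modEq_iff_dvd.2 h).symm

end FA.CoveringSystems

end
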