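import Fermat.Agent.CoveringSystems.Distortion
import Mathlib.Analysis.SpecialFunctions.Exp
import Mathlib.Algebra.BigOperators.Associated

/-!
# The moments of the fraction hit at a step

The first moment is at most the sum of the reciprocals of the moduli, the second at most
`s ^ 2 / (p - 1) ^ 2` times `exp (14 ∑_{ℓ < p} 1 / ℓ)` when a modulus is used at most `s` times.
-/

set_option autoImplicit false

noncomputable section

namespace FA.CoveringSystems

open Finset

namespace Congruences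

variable {ι : Type} (C : Congruences ι)

/-- The part of the modulus of earlier steps. -/
def oldPart (k : ℕ) (i : ι) : ℕ := (C.modulus i).gcd (C.bigQ k)

/-- The part of the modulus of the step `k`. -/
def newPart (k : ℕ) (i : ι) : ℕ := (C.modulus i).gcd (C.stepQ k)

theorem stage_parts {k : ℕ} {i : ι} (hi : i ∈ C.stage k) :
    C.modulus i = C.oldPart k i * C.newPart k i ∧ C.oldPart k i ∈ (C.bigQ k).divisors ∧
      C.newPart k i ∈ (C.stepQ k).divisors.erase 1 := by
  obtain ⟨-, h1, h2⟩ := mem_filter.1 hi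
  have e := C.split_modulus k h1
  refine ⟨e, Nat.mem_divisors.2 ⟨Nat.gcd_dvd_right _ _, (C.bigQ_pos k).ne'⟩,
    mem_erase.2 ⟨fun h => h2 ?_, Nat.mem_divisors.2 ⟨Nat.gcd_dvd_right _ _, (C.stepQ_pos k).ne'⟩⟩⟩
  rw [e, show (C.modulus i).gcd (C.stepQ k) = 1 from h, mul_one]
  exact Nat.gcd_dvd_right _ _

open scoped Classical in
/-- The fraction hit, congruence by congruence. -/
theorem frac_le_sum (k x : ℕ) : C.frac k x ≤ ∑ i ∈ C.stage k,
    (if x ≡ C.res i [MOD C.oldPart k i] then 1 else 0) / (C.newPart k i : ℝ) := by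
  have hq : (0 : ℝ) < C.stepQ k := Nat.cast_pos.2 (C.stepQ_pos k)
  rw [frac, div_le_iff₀ hq]
  calc ∑ y ∈ range (C.stepQ k), C.hit k (x + C.bigQ k * y)
      ≤ ∑ y ∈ range (C.stepQ k), ∑ i ∈ C.stage k,
          if x + C.bigQ k * y ≡ C.res i [MOD C.modulus i] then (1 : ℝ) else 0 := by
        refine sum_le_sum fun y _ => ?_
        rw [hit]
        split_ifs with h
        · obtain ⟨i, hi, hy⟩ := h
          refine le_trans (le_of_eq ?_) (single_le_sum (fun j _ => ?_) hi)
          · rw [if_pos hy]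
          · split_ifs <;> norm_num
        · exact sum_nonneg fun j _ => by split_ifs <;> norm_num
    _ ≤ _ := by
        rw [sum_comm, sum_mul]
        refine sum_le_sum fun i hi => ?_
        obtain ⟨e, -, hj⟩ := C.stage_parts hi
        have hj' := Nat.mem_divisors.1 (mem_of_mem_erase hj)
        have hind : ∀ y, x + C.bigQ k * y ≡ C.res i [MOD C.modulus i] →
            x ≡ C.res i [MOD C.oldPart k i] ∧
              x + C.bigQ k * y ≡ C.res i [MOD C.newPart k i] := fun y h => by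
          rw [e] at h
          refine ⟨?_, h.of_mul_left _⟩
          have h3 := h.of_mul_right _
          obtain ⟨c, hc⟩ : C.oldPart k i ∣ C.bigQ k := Nat.gcd_dvd_right _ _
          rwa [hc, mul_assoc, Nat.ModEq, Nat.add_mul_mod_self_left] at h3
        by_cases hx : x ≡ C.res i [MOD C.oldPart k i]
        · rw [if_pos hx, sum_boole, one_div_mul_eq_div]
          refine le_trans (Nat.cast_le.2 (card_le_card fun y hy => ?_))
            (card_fibre_class_le ((C.coprime_bigQ_stepQ k).coprime_dvd_right hj'.1) hj'.1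
              (Nat.pos_of_dvd_of_pos hj'.1 (C.stepQ_pos k)) x (C.res i))
          exact mem_filter.2 ⟨(mem_filter.1 hy).1, (hind y (mem_filter.1 hy).2).2⟩
        · rw [if_neg hx, zero_div, zero_mul]
          exact (sum_eq_zero fun y _ => if_neg fun h => hx (hind y h).1).le

open scoped Classical in
/-- The first moment, when the earlier steps are not distorted. -/
theorem mass_frac_le (k : ℕ) (hδ : ∀ p < k, C.δ p = 0) :
    C.mass k (C.frac k) ≤ ∑ i ∈ C.stage k, 1 / (C.modulus i : ℝ) := by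
  refine (C.mass_mono k (C.frac_le_sum k)).trans ?_
  simp only [mass, mul_sum]
  rw [sum_comm]
  refine sum_le_sum fun i hi => ?_
  obtain ⟨e, hm, -⟩ := C.stage_parts hi
  have hd : C.distort (C.oldPart k i) = 1 := by
    refine prod_eq_one fun p hp => ?_
    obtain ⟨hp, hpd, -⟩ := Nat.mem_primeFactors.1 hp
    obtain ⟨j, hj, hpj⟩ := (Prime.dvd_finsetProd_iff hp.prime _).1
      (hpd.trans (Nat.mem_divisors.1 hm).1)
    have : p = j := by
      unfold stepQ at hpj
      split_ifs at hpj with h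
      · exact (Nat.prime_dvd_prime_iff_eq hp h).1 (hp.dvd_of_dvd_pow hpj)
      · exact absurd (Nat.dvd_one.1 hpj) hp.ne_one
    rw [hδ p (this ▸ mem_range.1 hj), sub_zero, div_one]
  simp only [← mul_div_assoc]
  rw [← sum_div, e, Nat.cast_mul, div_mul_eq_div_div]
  refine div_le_div_of_nonneg_right ?_ (Nat.cast_nonneg _)
  exact (C.mass_class_le k _ (C.res i) (Nat.mem_divisors.1 hm).1).trans (le_of_eq (by rw [hd]))

/-- `∑ ν [m, m'] / [m, m']` over the divisors of the modulus of the earlier steps. -/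
def lcmSum (k : ℕ) : ℝ :=
  ∑ m ∈ (C.bigQ k).divisors, ∑ m' ∈ (C.bigQ k).divisors, C.distort (m.lcm m') / (m.lcm m' : ℕ)

theorem lcmSum_nonneg (k : ℕ) : 0 ≤ C.lcmSum k :=
  sum_nonneg fun _ _ => sum_nonneg fun _ _ => div_nonneg (C.distort_nonneg _) (Nat.cast_nonneg _)

theorem sum_max_le {p : ℕ} (hp : 2 ≤ p) {ν : ℝ} (hν : 0 ≤ ν) (g : ℕ → ℝ) (h0 : g 0 = 1)
    (hg : ∀ j, 1 ≤ j → g j ≤ ν / (p : ℝ) ^ j) (e : ℕ) :
    ∑ a ∈ range (e + 1), ∑ b ∈ range (e + 1), g (max a b) ≤
      1 + ν / p * (10 - (4 * e + 10) / 2 ^ e) := by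
  induction e with
  | zero => norm_num [h0]
  | succ e ih =>
    have e1 : ∑ b ∈ range (e + 1), g (max (e + 1) b) = (e + 1) * g (e + 1) := by
      rw [sum_congr rfl fun b hb => by rw [max_eq_left (by have := mem_range.1 hb; omega)],
        sum_const, card_range, nsmul_eq_mul]
      push_cast
      rfl
    have e2 : ∀ a ∈ range (e + 1), ∑ b ∈ range (e + 1 + 1), g (max a b) =
        (∑ b ∈ range (e + 1), g (max a b)) + g (e + 1) := fun a ha => by
      rw [sum_range_succ, max_eq_right (by have := mem_range.1 ha; omega)]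
    rw [sum_range_succ _ (e + 1), sum_congr rfl e2, sum_add_distrib, sum_const, card_range,
      nsmul_eq_mul, sum_range_succ _ (e + 1), e1, max_self]
    have hp0 : (2 : ℝ) ≤ p := Nat.ofNat_le_cast.2 hp
    have h1 : g (e + 1) ≤ ν / p * (1 / 2 ^ e) := by
      refine (hg _ (by omega)).trans ?_
      rw [pow_succ', div_mul_eq_div_div, div_eq_mul_one_div (ν / p)]
      exact mul_le_mul_of_nonneg_left (one_div_le_one_div_of_le (by positivity)
        (pow_le_pow_left₀ two_pos.le hp0 e)) (by positivity)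
    have h2 := mul_le_mul_of_nonneg_left h1 (show (0 : ℝ) ≤ 2 * e + 3 by positivity)
    have e3 : ν / p * (10 - (4 * (e : ℝ) + 10) / 2 ^ e) + (2 * e + 3) * (ν / p * (1 / 2 ^ e)) =
        ν / p * (10 - (4 * ((e : ℝ) + 1) + 10) / 2 ^ (e + 1)) := by
      rw [pow_succ]
      field_simp
      ring
    push_cast
    linarith

/-- The pairs of divisors grow by a bounded factor to the power `1 / p`. -/
theorem lcmSum_le (hδ : ∀ p, C.δ p ≤ 1 / 4) : ∀ k,
    C.lcmSum k ≤ Real.exp (14 * ∑ p ∈ (range k).filter Nat.Prime, 1 / (p : ℝ)) := by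
  intro k
  induction k with
  | zero => simp [lcmSum, bigQ_zero, distort]
  | succ k ih =>
    classical
    obtain ⟨F, hF⟩ : ∃ F : ℕ → ℕ → ℝ, F = fun a b => C.distort (a.lcm b) / (a.lcm b : ℕ) :=
      ⟨_, rfl⟩
    obtain ⟨D, hD⟩ : ∃ D, D = (C.bigQ k).divisors ×ˢ (C.stepQ k).divisors := ⟨_, rfl⟩
    obtain ⟨φ, hφ⟩ : ∃ φ : ℕ → ℕ × ℕ, φ = fun m => (m.gcd (C.bigQ k), m.gcd (C.stepQ k)) :=
      ⟨_, rfl⟩
    have hcop := C.coprime_bigQ_stepQ k
    have hsplit : ∀ m ∈ (C.bigQ (k + 1)).divisors, m = (φ m).1 * (φ m).2 ∧ φ m ∈ D := fun m hm => by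
      have hm' := (Nat.mem_divisors.1 hm).1
      rw [hφ, hD, mem_product, Nat.mem_divisors, Nat.mem_divisors]
      exact ⟨C.split_modulus k hm', ⟨Nat.gcd_dvd_right _ _, (C.bigQ_pos k).ne'⟩,
        Nat.gcd_dvd_right _ _, (C.stepQ_pos k).ne'⟩
    have hmul : ∀ u ∈ D, ∀ v ∈ D, F (u.1 * u.2) (v.1 * v.2) = F u.1 v.1 * F u.2 v.2 := by
      intro u hu v hv
      rw [hD, mem_product, Nat.mem_divisors, Nat.mem_divisors] at hu hv
      have hc : (u.1.lcm v.1).Coprime (u.2.lcm v.2) :=
        (hcop.coprime_dvd_left (Nat.lcm_dvd hu.1.1 hv.1.1)).coprime_dvd_right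
          (Nat.lcm_dvd hu.2.1 hv.2.1)
      have e : (u.1 * u.2).lcm (v.1 * v.2) = u.1.lcm v.1 * u.2.lcm v.2 := by
        rw [← ((hcop.coprime_dvd_left hu.1.1).coprime_dvd_right hu.2.1).lcm_eq_mul,
          ← ((hcop.coprime_dvd_left hv.1.1).coprime_dvd_right hv.2.1).lcm_eq_mul,
          ← hc.lcm_eq_mul]
        rw [Nat.lcm_assoc, Nat.lcm_assoc, ← Nat.lcm_assoc u.2, Nat.lcm_comm u.2 v.1, Nat.lcm_assoc]
      simp only [hF]
      rw [e, distort, hc.primeFactors_mul, prod_union hc.disjoint_primeFactors, Nat.cast_mul,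
        mul_div_mul_comm, distort, distort]
    have hF0 : ∀ a b, 0 ≤ F a b := fun a b => by
      rw [hF]; exact div_nonneg (C.distort_nonneg _) (Nat.cast_nonneg _)
    have hinj : Set.InjOn φ ↑(C.bigQ (k + 1)).divisors := fun a ha b hb hab => by
      rw [(hsplit a ha).1, (hsplit b hb).1, hab]
    have hstep : C.lcmSum (k + 1) ≤ C.lcmSum k *
        ∑ a ∈ (C.stepQ k).divisors, ∑ b ∈ (C.stepQ k).divisors, F a b := by
      calc C.lcmSum (k + 1) = ∑ m ∈ (C.bigQ (k + 1)).divisors, ∑ m' ∈ (C.bigQ (k + 1)).divisors,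
            F (φ m).1 (φ m').1 * F (φ m).2 (φ m').2 := by
            refine sum_congr rfl fun m hm => sum_congr rfl fun m' hm' => ?_
            rw [← hmul _ (hsplit m hm).2 _ (hsplit m' hm').2, ← (hsplit m hm).1,
              ← (hsplit m' hm').1, hF]
        _ = ∑ u ∈ (C.bigQ (k + 1)).divisors.image φ, ∑ v ∈ (C.bigQ (k + 1)).divisors.image φ,
            F u.1 v.1 * F u.2 v.2 := by
            rw [sum_image hinj]
            exact sum_congr rfl fun m _ =>
              (sum_image (f := fun v => F (φ m).1 v.1 * F (φ m).2 v.2) hinj).symm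
        _ ≤ ∑ u ∈ D, ∑ v ∈ D, F u.1 v.1 * F u.2 v.2 := by
            have hsub : (C.bigQ (k + 1)).divisors.image φ ⊆ D :=
              image_subset_iff.2 fun m hm => (hsplit m hm).2
            exact (sum_le_sum fun u _ => sum_le_sum_of_subset_of_nonneg hsub fun v _ _ =>
              mul_nonneg (hF0 _ _) (hF0 _ _)).trans (sum_le_sum_of_subset_of_nonneg hsub
                fun u _ _ => sum_nonneg fun v _ => mul_nonneg (hF0 _ _) (hF0 _ _))
        _ = _ := by
            rw [hD, sum_product, lcmSum, sum_mul]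
            refine sum_congr rfl fun a _ => ?_
            simp only [sum_product, hF, sum_mul, mul_sum]
            exact sum_congr rfl fun _ _ => sum_comm
    refine hstep.trans ?_
    by_cases hk : k.Prime
    · rw [range_add_one, filter_insert, if_pos hk, sum_insert (by simp), mul_add,
        add_comm (14 * (1 / (k : ℝ))), Real.exp_add]
      refine mul_le_mul ih ?_ (sum_nonneg fun a _ => sum_nonneg fun b _ => hF0 a b)
        (Real.exp_pos _).le
      have hinjp : Function.Injective fun a : ℕ => k ^ a := Nat.pow_right_injective hk.two_le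
      rw [stepQ, if_pos hk, Nat.divisors_prime_pow hk, sum_map]
      simp only [sum_map, Function.Embedding.coeFn_mk]
      have hlcm : ∀ a b : ℕ, (k ^ a).lcm (k ^ b) = k ^ max a b := fun a b => by
        rcases le_total a b with h | h
        · rw [max_eq_right h, Nat.lcm_eq_right (pow_dvd_pow k h)]
        · rw [max_eq_left h, Nat.lcm_eq_left (pow_dvd_pow k h)]
      have hmax := sum_max_le hk.two_le (show (0 : ℝ) ≤ 4 / 3 by norm_num)
        (fun j => C.distort (k ^ j) / ((k ^ j : ℕ) : ℝ)) (by simp [distort]) (fun j hj => ?_)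
        C.height
      · simp only [hF, hlcm]
        refine hmax.trans ?_
        refine le_trans ?_ (Real.add_one_le_exp _)
        obtain ⟨Z, hZ⟩ : ∃ Z, Z = (4 * (C.height : ℝ) + 10) / 2 ^ C.height := ⟨_, rfl⟩
        have hZ0 : 0 ≤ Z := hZ ▸ by positivity
        have hk0 : (0 : ℝ) ≤ 1 / k := by positivity
        rw [← hZ, show (4 : ℝ) / 3 / k = 4 / 3 * (1 / k) by ring]
        have := mul_nonneg hk0 hZ0
        linarith
      · rw [Nat.cast_pow]
        refine div_le_div_of_nonneg_right ?_ (by positivity)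
        rw [distort, Nat.primeFactors_prime_pow (by omega) hk, prod_singleton,
          div_le_iff₀ (sub_pos.2 (C.δ_lt_one k))]
        linarith [hδ k]
    · rw [range_add_one, filter_insert, if_neg hk]
      refine le_of_eq_of_le ?_ ih
      simp [stepQ, hk, hF, distort]

theorem sum_inv_prime_pow_le {p : ℕ} (hp : p.Prime) (e : ℕ) :
    ∑ j ∈ (p ^ e).divisors.erase 1, 1 / (j : ℝ) ≤ 1 / ((p : ℝ) - 1) := by
  have hp2 : (2 : ℝ) ≤ p := Nat.ofNat_le_cast.2 hp.two_le
  have hgeom : ∀ n : ℕ, ∑ a ∈ Icc 1 n, (1 / (p : ℝ)) ^ a =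
      (1 - (1 / (p : ℝ)) ^ n) / ((p : ℝ) - 1) := fun n => by
    have hp1 : (p : ℝ) - 1 ≠ 0 := by linarith
    induction n with
    | zero => simp
    | succ n ih =>
      rw [sum_Icc_succ_top (by omega), ih, pow_succ]
      field_simp
      ring
  have hsub : (p ^ e).divisors.erase 1 ⊆ (Icc 1 e).image (p ^ ·) := fun j hj => by
    obtain ⟨hj1, hj⟩ := mem_erase.1 hj
    obtain ⟨a, ha, rfl⟩ := (Nat.mem_divisors_prime_pow hp e).1 hj
    exact mem_image.2 ⟨a, mem_Icc.2 ⟨Nat.one_le_iff_ne_zero.2 fun h => hj1 (by simp [h]), ha⟩, rfl⟩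
  refine (sum_le_sum_of_subset_of_nonneg hsub fun j _ _ => by positivity).trans ?_
  rw [sum_image fun a _ b _ hab => Nat.pow_right_injective hp.two_le hab]
  refine le_of_eq_of_le (sum_congr rfl fun a _ => by rw [Nat.cast_pow, ← one_div_pow]) ?_
  rw [hgeom]
  exact div_le_div_of_nonneg_right (sub_le_self _ (by positivity)) (by linarith)

theorem sum_parts_le {s : ℕ}
    (hs : ∀ m, (C.index.filter fun i => C.modulus i = m).card ≤ s) (k : ℕ) (G : ℕ × ℕ → ℝ)
    (hG : ∀ p, 0 ≤ G p) : ∑ i ∈ C.stage k, G (C.oldPart k i, C.newPart k i) ≤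
      (s : ℝ) * ∑ p ∈ (C.bigQ k).divisors ×ˢ (C.stepQ k).divisors.erase 1, G p := by
  classical
  rw [mul_sum, ← sum_fiberwise_of_maps_to (t := (C.bigQ k).divisors ×ˢ (C.stepQ k).divisors.erase 1)
    (g := fun i => (C.oldPart k i, C.newPart k i))
    fun i hi => mem_product.2 ⟨(C.stage_parts hi).2.1, (C.stage_parts hi).2.2⟩]
  refine sum_le_sum fun p _ => ?_
  rw [sum_congr rfl fun i hi => by rw [(mem_filter.1 hi).2], sum_const, nsmul_eq_mul]
  refine mul_le_mul_of_nonneg_right (Nat.cast_le.2 (le_trans (card_le_card fun i hi => ?_)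
    (hs (p.1 * p.2)))) (hG p)
  obtain ⟨hi, hp⟩ := mem_filter.1 hi
  exact mem_filter.2 ⟨(mem_filter.1 hi).1, (C.stage_parts hi).1.trans (by rw [← hp])⟩

open scoped Classical in
/-- **The second moment.** -/
theorem mass_frac_sq_le {k s : ℕ} (hk : k.Prime)
    (hs : ∀ m, (C.index.filter fun i => C.modulus i = m).card ≤ s) (hδ : ∀ p, C.δ p ≤ 1 / 4) :
    C.mass k (fun x => C.frac k x ^ 2) ≤
      (s : ℝ) ^ 2 / ((k : ℝ) - 1) ^ 2 *
        Real.exp (14 * ∑ p ∈ (range k).filter Nat.Prime, 1 / (p : ℝ)) := by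
  obtain ⟨G, hG⟩ : ∃ G : ℕ × ℕ → ℕ × ℕ → ℝ, G = fun u v =>
      C.distort (u.1.lcm v.1) / (u.1.lcm v.1 : ℕ) * ((1 / (u.2 : ℝ)) * (1 / (v.2 : ℝ))) := ⟨_, rfl⟩
  have hG0 : ∀ u v, 0 ≤ G u v := fun u v => by
    rw [hG]
    exact mul_nonneg (div_nonneg (C.distort_nonneg _) (Nat.cast_nonneg _)) (by positivity)
  have h1 : C.mass k (fun x => C.frac k x ^ 2) ≤ ∑ i ∈ C.stage k, ∑ i' ∈ C.stage k,
      G (C.oldPart k i, C.newPart k i) (C.oldPart k i', C.newPart k i') := by
    refine (C.mass_mono k fun x =>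
      pow_le_pow_left₀ (C.frac_nonneg k x) (C.frac_le_sum k x) 2).trans ?_
    simp only [mass, sq, sum_mul_sum]
    simp only [mul_sum]
    rw [sum_comm]
    refine sum_le_sum fun i hi => ?_
    rw [sum_comm]
    refine sum_le_sum fun i' hi' => ?_
    obtain ⟨-, hm, -⟩ := C.stage_parts hi
    obtain ⟨-, hm', -⟩ := C.stage_parts hi'
    rw [hG]
    by_cases h : ∃ a, a ≡ C.res i [MOD C.oldPart k i] ∧ a ≡ C.res i' [MOD C.oldPart k i']
    · obtain ⟨a, ha, ha'⟩ := h
      refine le_trans ?_ (mul_le_mul_of_nonneg_right (C.mass_class_le k _ a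
        (Nat.lcm_dvd (Nat.mem_divisors.1 hm).1 (Nat.mem_divisors.1 hm').1)) (by positivity))
      rw [mass, sum_mul]
      refine sum_le_sum fun x _ => ?_
      rw [mul_assoc]
      refine mul_le_mul_of_nonneg_left ?_ (C.weight_nonneg k x)
      by_cases hx : x ≡ C.res i [MOD C.oldPart k i] ∧ x ≡ C.res i' [MOD C.oldPart k i']
      · rw [if_pos hx.1, if_pos hx.2, if_pos (show x ≡ a [MOD (C.oldPart k i).lcm (C.oldPart k i')]
          from ?_), one_mul]
        exact Nat.modEq_iff_dvd.2 (Int.natCast_dvd.2 (Nat.lcm_dvd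
          (Int.natCast_dvd.1 (hx.1.trans ha.symm).dvd)
          (Int.natCast_dvd.1 (hx.2.trans ha'.symm).dvd)))
      · refine le_of_eq_of_le ?_ (mul_nonneg (by split_ifs <;> norm_num) (by positivity))
        rcases not_and_or.1 hx with hx | hx <;> simp [hx]
    · refine le_of_eq_of_le (sum_eq_zero fun x _ => ?_)
        (mul_nonneg (div_nonneg (C.distort_nonneg _) (Nat.cast_nonneg _)) (by positivity))
      by_cases hx : x ≡ C.res i [MOD C.oldPart k i]
      · simp [show ¬x ≡ C.res i' [MOD C.oldPart k i'] from fun hx' => h ⟨x, hx, hx'⟩]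
      · simp [hx]
  refine h1.trans ?_
  obtain ⟨D, hD⟩ : ∃ D, D = (C.bigQ k).divisors ×ˢ (C.stepQ k).divisors.erase 1 := ⟨_, rfl⟩
  have h2 : ∑ i ∈ C.stage k, ∑ i' ∈ C.stage k,
      G (C.oldPart k i, C.newPart k i) (C.oldPart k i', C.newPart k i') ≤
      (s : ℝ) * ((s : ℝ) * ∑ u ∈ D, ∑ v ∈ D, G u v) := by
    refine (C.sum_parts_le hs k (fun u => ∑ i' ∈ C.stage k, G u (C.oldPart k i', C.newPart k i'))
      fun u => sum_nonneg fun i' _ => hG0 _ _).trans ?_
    rw [← hD]
    refine mul_le_mul_of_nonneg_left ?_ (Nat.cast_nonneg s)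
    rw [mul_sum]
    exact sum_le_sum fun u _ => hD ▸ C.sum_parts_le hs k (G u) (hG0 u)
  refine h2.trans ?_
  have h3 : ∑ u ∈ D, ∑ v ∈ D, G u v ≤ C.lcmSum k * (1 / ((k : ℝ) - 1)) ^ 2 := by
    obtain ⟨J, hJ⟩ : ∃ J : ℝ, J = ∑ j ∈ (C.stepQ k).divisors.erase 1, 1 / (j : ℝ) := ⟨_, rfl⟩
    have hJle : J ≤ 1 / ((k : ℝ) - 1) := by
      rw [hJ, stepQ, if_pos hk]
      exact sum_inv_prime_pow_le hk _
    have e : ∑ u ∈ D, ∑ v ∈ D, G u v = C.lcmSum k * J ^ 2 := by
      rw [hD, hG, hJ, lcmSum, sum_product, sum_mul]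
      refine sum_congr rfl fun a _ => ?_
      simp only [sum_product]
      rw [sum_comm, sum_mul]
      refine sum_congr rfl fun b _ => ?_
      rw [sq, sum_mul_sum, mul_sum]
      exact sum_congr rfl fun j _ => by rw [mul_sum]
    rw [e]
    exact mul_le_mul_of_nonneg_left (pow_le_pow_left₀
      (hJ ▸ sum_nonneg fun j _ => by positivity) hJle 2) (C.lcmSum_nonneg k)
  calc (s : ℝ) * ((s : ℝ) * ∑ u ∈ D, ∑ v ∈ D, G u v)
      ≤ (s : ℝ) * ((s : ℝ) * (Real.exp (14 * ∑ p ∈ (range k).filter Nat.Prime, 1 / (p : ℝ)) *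
          (1 / ((k : ℝ) - 1)) ^ 2)) := by
        refine mul_le_mul_of_nonneg_left (mul_le_mul_of_nonneg_left (h3.trans ?_)
          (Nat.cast_nonneg s)) (Nat.cast_nonneg s)
        exact mul_le_mul_of_nonneg_right (C.lcmSum_le hδ k) (sq_nonneg _)
    _ = _ := by rw [one_div_pow]; ring

end Congruences

end FA.CoveringSystems

end
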